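import Mathlib
import Fermat.Agent.S41.Spec.HK

/-!
# Row S41, block HK (helper581): basic facts on Mathlib's transfer and `Spec.transferAlong`

* `transfer_mul_h581`, `transfer_comp_h581` : the transfer is multiplicative in the character and
  natural in the coefficient group;
* `transferAlong_add`, `transferAlong_comp` : the same for `Spec.transferAlong`;
* `transferAlong_eq_zero_of` : the cycle formula in the form "if `ψ` kills every `h` with
  `f h = t⁻¹ g ^ k t`, then the transfer of `ψ` kills `g`" (`f` may be assumed injective).
-/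

set_option autoImplicit false

namespace Fermat.Agent.S41.H581

open Subgroup Subgroup.leftTransversals

section Mul

variable {G : Type*} [Group G] {H : Subgroup G} {A : Type*} [CommGroup A]

theorem diff_mul_h581 [H.FiniteIndex] (ϕ ϕ' : H →* A) (S T : H.LeftTransversal) :
    diff (ϕ * ϕ') S T = diff ϕ S T * diff ϕ' S T := by
  unfold diff
  simp only [MonoidHom.mul_apply]
  exact Finset.prod_mul_distrib

theorem diff_comp_h581 {B : Type*} [CommGroup B] [H.FiniteIndex] (π : A →* B) (ϕ : H →* A)
    (S T : H.LeftTransversal) :
    diff (π.comp ϕ) S T = π (diff ϕ S T) := by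
  unfold diff
  simp only [MonoidHom.comp_apply, map_prod]

theorem transfer_mul_h581 [H.FiniteIndex] (ϕ ϕ' : H →* A) :
    MonoidHom.transfer (ϕ * ϕ') = MonoidHom.transfer ϕ * MonoidHom.transfer ϕ' := by
  ext g
  rw [MonoidHom.mul_apply, MonoidHom.transfer_def (ϕ * ϕ') default g,
    MonoidHom.transfer_def ϕ default g, MonoidHom.transfer_def ϕ' default g, diff_mul_h581]

theorem transfer_comp_h581 {B : Type*} [CommGroup B] [H.FiniteIndex] (π : A →* B) (ϕ : H →* A) :
    MonoidHom.transfer (π.comp ϕ) = π.comp (MonoidHom.transfer ϕ) := by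
  ext g
  rw [MonoidHom.comp_apply, MonoidHom.transfer_def (π.comp ϕ) default g,
    MonoidHom.transfer_def ϕ default g, diff_comp_h581]

/-- Cycle formula, vanishing form. -/
theorem transfer_eq_one_of_h581 [H.FiniteIndex] (ϕ : H →* A) (g : G)
    (h : ∀ (k : ℕ) (t : G) (hk : t⁻¹ * g ^ k * t ∈ H), ϕ ⟨t⁻¹ * g ^ k * t, hk⟩ = 1) :
    MonoidHom.transfer ϕ g = 1 := by
  classical
  let := H.fintypeQuotientOfFiniteIndex
  rw [MonoidHom.transfer_eq_prod_quotient_orbitRel_zpowers_quot]
  exact Finset.prod_eq_one fun q _ => h _ _ _

end Mul

section Along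

open Fermat.Agent.S41.Spec

variable {A : Type*} [AddCommGroup A] {H G : Type*} [Group H] [Group G]

theorem transferAlong_of_not (f : H →* G) (h : ¬ (Function.Injective f ∧ f.range.FiniteIndex))
    (ψ : Additive H →+ A) : transferAlong f ψ = 0 := by
  unfold transferAlong
  rw [dif_neg h]

theorem transferAlong_of (f : H →* G) (h : Function.Injective f ∧ f.range.FiniteIndex)
    (ψ : Additive H →+ A) :
    transferAlong f ψ =
      haveI := h.2
      MonoidHom.toAdditiveLeft (MonoidHom.transfer
        ((AddMonoidHom.toMultiplicativeRight ψ).comp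
          (MonoidHom.ofInjective h.1).symm.toMonoidHom)) := by
  unfold transferAlong
  rw [dif_pos h]

theorem transferAlong_apply_of (f : H →* G) (h : Function.Injective f ∧ f.range.FiniteIndex)
    (ψ : Additive H →+ A) (g : G) :
    transferAlong f ψ (Additive.ofMul g) =
      haveI := h.2
      Multiplicative.toAdd (MonoidHom.transfer
        ((AddMonoidHom.toMultiplicativeRight ψ).comp
          (MonoidHom.ofInjective h.1).symm.toMonoidHom) g) := by
  rw [transferAlong_of f h]
  rfl

theorem transferAlong_add (f : H →* G) (ψ ψ' : Additive H →+ A) :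
    transferAlong f (ψ + ψ') = transferAlong f ψ + transferAlong f ψ' := by
  by_cases h : Function.Injective f ∧ f.range.FiniteIndex
  · have := h.2
    refine AddMonoidHom.ext fun g => ?_
    obtain ⟨g, rfl⟩ := Additive.ofMul.surjective g
    rw [AddMonoidHom.add_apply, transferAlong_apply_of f h, transferAlong_apply_of f h,
      transferAlong_apply_of f h, ← toAdd_mul, ← MonoidHom.mul_apply, ← transfer_mul_h581]
    rfl
  · simp [transferAlong_of_not f h]

theorem transferAlong_comp {B : Type*} [AddCommGroup B] (f : H →* G) (π : A →+ B)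
    (ψ : Additive H →+ A) :
    transferAlong f (π.comp ψ) = π.comp (transferAlong f ψ) := by
  by_cases h : Function.Injective f ∧ f.range.FiniteIndex
  · have := h.2
    refine AddMonoidHom.ext fun g => ?_
    obtain ⟨g, rfl⟩ := Additive.ofMul.surjective g
    rw [AddMonoidHom.comp_apply, transferAlong_apply_of f h, transferAlong_apply_of f h]
    have := transfer_comp_h581 (AddMonoidHom.toMultiplicative π)
      ((AddMonoidHom.toMultiplicativeRight ψ).comp
          (MonoidHom.ofInjective h.1).symm.toMonoidHom)
    have h2 := congrArg (fun F => Multiplicative.toAdd (F g)) this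
    simp only [MonoidHom.comp_apply] at h2
    exact h2
  · simp [transferAlong_of_not f h]

/-- Cycle formula for `transferAlong`, vanishing form: if `ψ` kills every `h` such that `f h` is
conjugate to a power of `g`, then `transferAlong f ψ` kills `g`. -/
theorem transferAlong_eq_zero_of (f : H →* G) (ψ : Additive H →+ A) (g : G)
    (hψ : Function.Injective f → ∀ (k : ℕ) (t : G) (h : H), f h = t⁻¹ * g ^ k * t →
      ψ (Additive.ofMul h) = 0) :
    transferAlong f ψ (Additive.ofMul g) = 0 := by
  by_cases h : Function.Injective f ∧ f.range.FiniteIndex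
  · have := h.2
    rw [transferAlong_apply_of f h]
    rw [transfer_eq_one_of_h581]
    · rfl
    · intro k t hk
      have := hψ h.1 k t ((MonoidHom.ofInjective h.1).symm ⟨t⁻¹ * g ^ k * t, hk⟩) ?_
      · exact congrArg Multiplicative.ofAdd this
      · have := (MonoidHom.ofInjective h.1).apply_symm_apply ⟨t⁻¹ * g ^ k * t, hk⟩
        exact congrArg Subtype.val this
  · simp [transferAlong_of_not f h]

end Along

end Fermat.Agent.S41.H581
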