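import Mathlib
import Fermat.Agent.S41.Spec.HK

/-!
# Row S41, block HK, leaf RC (helper581)

`restrictCusp : Spec.RestrictCuspStatement` — the degeneracy maps `r₁, r₂` preserve cuspidal
classes: `incl` and `conjDelta` preserve the trace and send elements of finite order to elements
of finite order.
-/

set_option autoImplicit false

namespace Fermat.Agent.S41.H581

open CongruenceSubgroup Matrix.SpecialLinearGroup ModularCurve.Period
open Fermat.Agent.S41.Spec
open scoped MatrixGroups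

universe u

theorem trace_incl (N q : ℕ) (γ : Gamma0 (N * q)) :
    (((incl N q γ : Gamma0 N) : SL(2, ℤ)) : Matrix (Fin 2) (Fin 2) ℤ).trace =
      ((γ : SL(2, ℤ)) : Matrix (Fin 2) (Fin 2) ℤ).trace := rfl

theorem trace_conjDelta (N q : ℕ) (γ : Gamma0 (N * q)) :
    (((conjDelta N q γ : Gamma0 N) : SL(2, ℤ)) : Matrix (Fin 2) (Fin 2) ℤ).trace =
      ((γ : SL(2, ℤ)) : Matrix (Fin 2) (Fin 2) ℤ).trace := by
  change (conjDeltaMatrix q (γ : SL(2, ℤ))).trace = _
  simp [conjDeltaMatrix, Matrix.trace_fin_two]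

/-- Composition with a trace-preserving homomorphism preserves cuspidality. -/
theorem isCuspidal_comp_of_trace {A : Type*} [AddCommGroup A] {n m : ℕ}
    (f : Gamma0 m →* Gamma0 n)
    (hf : ∀ γ : Gamma0 m, (((f γ : Gamma0 n) : SL(2, ℤ)) : Matrix (Fin 2) (Fin 2) ℤ).trace =
      ((γ : SL(2, ℤ)) : Matrix (Fin 2) (Fin 2) ℤ).trace)
    (φ : Additive (Gamma0 n) →+ A) (hφ : IsCuspidal φ) :
    IsCuspidal (φ.comp (MonoidHom.toAdditive f)) := by
  refine ⟨fun γ hγ => ?_, fun γ hγ => ?_⟩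
  · exact hφ.1 (f γ) (by rw [hf]; exact hγ)
  · exact hφ.2 (f γ) (f.isOfFinOrder hγ)

/-- (HK-1a) `r₁, r₂` preserve cuspidal classes. -/
theorem restrictCusp : Spec.RestrictCuspStatement.{u} := by
  intro N q A _ φ hφ
  exact ⟨isCuspidal_comp_of_trace (incl N q) (trace_incl N q) φ hφ,
    isCuspidal_comp_of_trace (conjDelta N q) (trace_conjDelta N q) φ hφ⟩

end Fermat.Agent.S41.H581
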