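import Mathlib
import Fermat.Agent.S41.Spec.HK
import Fermat.Agent.S41.H581.TransferBasic
import Fermat.Agent.S41.H581.RestrictCusp

/-!
# Row S41, block HK, leaf TC (helper581)

`transferCusp : Spec.TransferCuspStatement` — the transfers `t₁, t₂` preserve cuspidal classes.

By the cycle formula the value of a transfer at `g` is a sum of values `ψ h` with
`f h = t⁻¹ g ^ k t`; if `(tr g)² = 4` then `(tr g ^ k)² = 4` (Cayley–Hamilton), the trace is
invariant under conjugation and under `incl`, `conjDelta`, and finite order is preserved by powers,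
conjugation and reflected by injective homomorphisms.
-/

set_option autoImplicit false

namespace Fermat.Agent.S41.H581

open CongruenceSubgroup Matrix.SpecialLinearGroup ModularCurve.Period
open Fermat.Agent.S41.Spec
open scoped MatrixGroups

universe u

/-- Cayley–Hamilton for `2 × 2` matrices of determinant `1`. -/
theorem mul_self_eq_of_det_one (M : Matrix (Fin 2) (Fin 2) ℤ) (hM : M.det = 1) :
    M * M = M.trace • M - 1 := by
  rw [Matrix.det_fin_two] at hM
  ext i j
  fin_cases i <;> fin_cases j <;>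
    simp only [Matrix.mul_apply, Fin.sum_univ_two, Matrix.trace_fin_two, Matrix.sub_apply,
      Matrix.smul_apply, smul_eq_mul, Matrix.one_apply, Fin.zero_eta, Fin.mk_one, Fin.isValue,
      if_true, one_ne_zero, zero_ne_one, if_false] <;>
    first | ring1 | linear_combination -hM

theorem pow_add_two_eq_of_det_one (M : Matrix (Fin 2) (Fin 2) ℤ) (hM : M.det = 1) (k : ℕ) :
    M ^ (k + 2) = M.trace • M ^ (k + 1) - M ^ k := by
  rw [pow_add, pow_two, mul_self_eq_of_det_one M hM, mul_sub, mul_one, Matrix.mul_smul,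
    ← pow_succ]

theorem trace_pow_of_trace_eq (M : Matrix (Fin 2) (Fin 2) ℤ) (hM : M.det = 1) (ε : ℤ)
    (hε : ε ^ 2 = 1) (ht : M.trace = 2 * ε) (k : ℕ) : (M ^ k).trace = 2 * ε ^ k := by
  induction k using Nat.twoStepInduction with
  | zero => simp
  | one => simpa using ht
  | more k h0 h1 =>
    rw [pow_add_two_eq_of_det_one M hM, Matrix.trace_sub, Matrix.trace_smul, h0, h1, ht,
      smul_eq_mul]
    have : ε ^ (k + 2) = ε ^ k := by rw [pow_add, hε, mul_one]
    rw [this, pow_succ]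
    linear_combination (4 * ε ^ k) * hε

/-- If `(tr M)² = 4` and `det M = 1`, then `(tr M ^ k)² = 4`. -/
theorem trace_pow_sq_eq_four (M : Matrix (Fin 2) (Fin 2) ℤ) (hM : M.det = 1)
    (ht : M.trace ^ 2 = 4) (k : ℕ) : (M ^ k).trace ^ 2 = 4 := by
  have h : (M.trace - 2) * (M.trace + 2) = 0 := by linear_combination ht
  rcases mul_eq_zero.mp h with h | h
  · rw [trace_pow_of_trace_eq M hM 1 (by norm_num) (by linarith) k]
    norm_num
  · rw [trace_pow_of_trace_eq M hM (-1) (by norm_num) (by linarith) k, mul_pow, ← pow_mul,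
      mul_comm k 2, pow_mul]
    norm_num

theorem trace_conj_sl (t x : SL(2, ℤ)) :
    ((t⁻¹ * x * t : SL(2, ℤ)) : Matrix (Fin 2) (Fin 2) ℤ).trace =
      (x : Matrix (Fin 2) (Fin 2) ℤ).trace := by
  rw [Matrix.SpecialLinearGroup.coe_mul, Matrix.trace_mul_comm,
    ← Matrix.SpecialLinearGroup.coe_mul, ← mul_assoc, mul_inv_cancel, one_mul]

theorem trace_conj_pow_sq {n : ℕ} (g t : Gamma0 n) (k : ℕ)
    (hg : ((g : SL(2, ℤ)) : Matrix (Fin 2) (Fin 2) ℤ).trace ^ 2 = 4) :
    (((t⁻¹ * g ^ k * t : Gamma0 n) : SL(2, ℤ)) : Matrix (Fin 2) (Fin 2) ℤ).trace ^ 2 = 4 := by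
  have h1 : ((t⁻¹ * g ^ k * t : Gamma0 n) : SL(2, ℤ)) =
      (t : SL(2, ℤ))⁻¹ * (g : SL(2, ℤ)) ^ k * (t : SL(2, ℤ)) := by
    simp
  rw [h1, trace_conj_sl, Matrix.SpecialLinearGroup.coe_pow]
  exact trace_pow_sq_eq_four _ (g : SL(2, ℤ)).det_coe hg k

/-- The transfer along a trace-preserving homomorphism `Γ₀(m) → Γ₀(n)` preserves cuspidality. -/
theorem isCuspidal_transferAlong_of_trace {A : Type*} [AddCommGroup A] {n m : ℕ}
    (f : Gamma0 m →* Gamma0 n)
    (hf : ∀ γ : Gamma0 m, (((f γ : Gamma0 n) : SL(2, ℤ)) : Matrix (Fin 2) (Fin 2) ℤ).trace =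
      ((γ : SL(2, ℤ)) : Matrix (Fin 2) (Fin 2) ℤ).trace)
    (ψ : Additive (Gamma0 m) →+ A) (hψ : IsCuspidal ψ) :
    IsCuspidal (transferAlong f ψ) := by
  refine ⟨fun γ hγ => ?_, fun γ hγ => ?_⟩
  · refine transferAlong_eq_zero_of f ψ γ fun _ k t h hh => hψ.1 h ?_
    rw [← hf, hh]
    exact trace_conj_pow_sq γ t k hγ
  · refine transferAlong_eq_zero_of f ψ γ fun hinj k t h hh => hψ.2 h ?_
    rw [← hinj.isOfFinOrder_iff, hh]
    have h1 : IsOfFinOrder (γ ^ k) := hγ.pow
    have h2 := (MulAut.conj t⁻¹).toMonoidHom.isOfFinOrder h1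
    simpa [MulAut.conj_apply] using h2

/-- (HK-1b) `t₁, t₂` preserve cuspidal classes. -/
theorem transferCusp : Spec.TransferCuspStatement.{u} := by
  intro N q A _ ψ hψ
  exact ⟨isCuspidal_transferAlong_of_trace (incl N q) (trace_incl N q) ψ hψ,
    isCuspidal_transferAlong_of_trace (conjDelta N q) (trace_conjDelta N q) ψ hψ⟩

end Fermat.Agent.S41.H581
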