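import Mathlib
import Fermat.Agent.S41.Spec.HK
import Fermat.Agent.S41.H581.TransferBasic

/-!
# Row S41, block HK, leaf FUN (helper581)

`functoriality : Spec.FunctorialityStatement` — additivity and naturality in the coefficients of
the degeneracy maps `r₁, r₂` and of the transfers `t₁, t₂`.
-/

set_option autoImplicit false

namespace Fermat.Agent.S41.H581

open Fermat.Agent.S41.Spec

universe u

/-- (HK-0) additivity and naturality in the coefficients of `r₁, r₂, t₁, t₂`. -/
theorem functoriality : Spec.FunctorialityStatement.{u} := by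
  intro N q A B _ _ π
  refine ⟨fun φ φ' => ⟨?_, ?_⟩, fun ψ ψ' => ⟨?_, ?_⟩, fun φ => ⟨?_, ?_⟩, fun ψ => ⟨?_, ?_⟩⟩
  · exact AddMonoidHom.add_comp _ _ _
  · exact AddMonoidHom.add_comp _ _ _
  · exact transferAlong_add _ _ _
  · exact transferAlong_add _ _ _
  · exact AddMonoidHom.comp_assoc _ _ _
  · exact AddMonoidHom.comp_assoc _ _ _
  · exact transferAlong_comp _ _ _
  · exact transferAlong_comp _ _ _

end Fermat.Agent.S41.H581
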