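import Mathlib
import Fermat.Agent.S41.Spec.PD
import Fermat.Agent.S21.H585.LowerBound

/-!
# Row S41, block PD, leaves DICT-b (helper581)

* `maninRepRealize : Spec.ManinRepRealizeStatement` (D3): every Manin symbol represents a class;
* `maninRepTorsion_of : Spec.TorsionClassStatement → Spec.ManinRepTorsionStatement` (D3'):
  represented classes kill the elements of finite order;
* `maninRepParabolic : Spec.ManinRepParabolicStatement` (D4): `φ` is parabolic iff `m` admits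
  parabolic data.

Everything is cocycle algebra on `X = SL(2,ℤ) ⧸ Γ` (`Fermat.Agent.S21.H585`).
-/

set_option autoImplicit false

namespace Fermat.Agent.S41.H581

open CongruenceSubgroup Matrix.SpecialLinearGroup ModularCurve.Period ModularGroup
open Fermat.Agent.S41.Spec Fermat.Agent.S21.H585
open scoped MatrixGroups

universe u

section Basic

variable {Γ : Subgroup SL(2, ℤ)} {A : Type*} [AddCommGroup A]

theorem isManinCocycle_isCocycle {f : SL(2, ℤ) → SL(2, ℤ) ⧸ Γ → A} {m : SL(2, ℤ) ⧸ Γ → A}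
    (hf : IsManinCocycle Γ f m) : IsCocycle f := hf.1

theorem smul_basePt_eq_iff (g : SL(2, ℤ)) : g • basePt Γ = basePt Γ ↔ g ∈ Γ := by
  rw [smul_basePt_eq, basePt, QuotientGroup.eq, mul_one, inv_mem_iff]

/-- `ST` cubed acts trivially on `X` when `-1 ∈ Γ`. -/
theorem ST_cube_smul (hneg : (-1 : SL(2, ℤ)) ∈ Γ) (x : SL(2, ℤ) ⧸ Γ) :
    (S * T) • (S * T) • (S * T) • x = x := by
  rw [smul_smul, smul_smul, ST_cube_eq_neg_one, neg_one_smul_quot hneg]

theorem S_sq_smul (hneg : (-1 : SL(2, ℤ)) ∈ Γ) (x : SL(2, ℤ) ⧸ Γ) : S • S • x = x := by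
  rw [smul_smul, S_mul_S_eq_neg_one, neg_one_smul_quot hneg]

/-- For a normalised cocycle, `f (-1) = 0`. -/
theorem maninCocycle_neg_one {f : SL(2, ℤ) → SL(2, ℤ) ⧸ Γ → A} {m : SL(2, ℤ) ⧸ Γ → A}
    (hf : IsManinCocycle Γ f m) (x : SL(2, ℤ) ⧸ Γ) : f (-1) x = 0 := by
  rw [← S_mul_S_eq_neg_one, hf.1, hf.2.1, hf.2.1, add_zero]

/-- For a normalised cocycle, `f (-g) = f g`. -/
theorem maninCocycle_neg {f : SL(2, ℤ) → SL(2, ℤ) ⧸ Γ → A} {m : SL(2, ℤ) ⧸ Γ → A}
    (hf : IsManinCocycle Γ f m) (g : SL(2, ℤ)) (x : SL(2, ℤ) ⧸ Γ) : f (-g) x = f g x := by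
  have h : (-g : SL(2, ℤ)) = (-1) * g := by simp
  rw [h, hf.1, maninCocycle_neg_one hf, add_zero]

/-- For a normalised cocycle, `f T = f (S T)`. -/
theorem maninCocycle_T {f : SL(2, ℤ) → SL(2, ℤ) ⧸ Γ → A} {m : SL(2, ℤ) ⧸ Γ → A}
    (hf : IsManinCocycle Γ f m) (x : SL(2, ℤ) ⧸ Γ) : f T x = m ((S * T) • x) - m x := by
  have h1 : T = S⁻¹ * (S * T) := by rw [inv_mul_cancel_left]
  have hc : IsCocycle f := hf.1
  conv_lhs => rw [h1]
  rw [hf.1, hc.map_inv', hf.2.1, hf.2.2, neg_zero, add_zero]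

/-- Transport of a value of the class along a conjugation. -/
theorem maninRep_conj {φ : Additive Γ →+ A} {f : SL(2, ℤ) → SL(2, ℤ) ⧸ Γ → A}
    (hf : IsCocycle f)
    (hφ : ∀ γ : Γ, φ (Additive.ofMul γ) = f (γ : SL(2, ℤ)) ((1 : SL(2, ℤ)) : SL(2, ℤ) ⧸ Γ))
    (γ : Γ) (h t : SL(2, ℤ)) (ht : h * (γ : SL(2, ℤ)) * h⁻¹ = t) :
    φ (Additive.ofMul γ) = f t (h • basePt Γ) ∧ t • (h • basePt Γ) = h • basePt Γ := by
  have hγ : (γ : SL(2, ℤ)) = h⁻¹ * t * h⁻¹⁻¹ := by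
    rw [← ht]; group
  have hfix : (h⁻¹ * t * h⁻¹⁻¹) • basePt Γ = basePt Γ := by
    rw [← hγ]; exact smul_basePt_of_mem Γ γ.2
  refine ⟨?_, ?_⟩
  · rw [hφ γ]
    show f (γ : SL(2, ℤ)) (basePt Γ) = _
    rw [hγ, hf.conj_apply h⁻¹ t hfix, inv_inv]
  · rw [← ht, ← mul_smul, inv_mul_cancel_right, mul_smul, smul_basePt_of_mem Γ γ.2]

end Basic

/-- (D3) every Manin symbol represents a class. -/
theorem maninRepRealize : Spec.ManinRepRealizeStatement.{u} := by
  intro Γ _ hneg A _ m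
  have hn := neg_one_smul_quot hneg
  obtain ⟨f, hf, hfS, hfU⟩ := exists_cocycle (X := SL(2, ℤ) ⧸ Γ) hn (0 : SL(2, ℤ) ⧸ Γ → A)
    (fun x => m ((S * T) • x) - m x) (fun x => by simp)
    (fun x => by
      rw [ST_cube_smul hneg]
      abel)
  refine ⟨homOfCocycle Γ f hf, f, ⟨hf, fun x => by rw [hfS]; rfl, fun x => by rw [hfU]⟩,
    fun γ => rfl⟩

/-- (D3') represented classes are torsion-trivial, given the classification of torsion. -/
theorem maninRepTorsion_of (tors : Spec.TorsionClassStatement) :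
    Spec.ManinRepTorsionStatement.{u} := by
  intro Γ _ hneg A _ φ m hrep γ hγ
  obtain ⟨f, hf, hφ⟩ := hrep
  have hc : IsCocycle f := hf.1
  have hn := neg_one_smul_quot hneg
  have hγ' : IsOfFinOrder (γ : SL(2, ℤ)) := Γ.subtype.isOfFinOrder hγ
  obtain ⟨h, ht⟩ := tors (γ : SL(2, ℤ)) hγ'
  -- values of `f` on the eight torsion elements at a fixed point
  have hU : ∀ y : SL(2, ℤ) ⧸ Γ, (S * T) • y = y → f (S * T) y = 0 := by
    intro y hy
    rw [hf.2.2, hy, sub_self]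
  have hU2 : ∀ y : SL(2, ℤ) ⧸ Γ, (S * T) ^ 2 • y = y → f ((S * T) ^ 2) y = 0 := by
    intro y hy
    rw [pow_two] at hy ⊢
    rw [hf.1, hf.2.2, hf.2.2, ← mul_smul, hy]
    abel
  have hnegsmul : ∀ (g : SL(2, ℤ)) (y : SL(2, ℤ) ⧸ Γ), (-g) • y = g • y := by
    intro g y
    have h1 : (-g : SL(2, ℤ)) = (-1) * g := by simp
    rw [h1, mul_smul, hn]
  rcases ht with ht | ht | ht | ht | ht | ht | ht | ht
  · rw [(maninRep_conj hc hφ γ h _ ht).1, hc.map_one]
  · rw [(maninRep_conj hc hφ γ h _ ht).1, maninCocycle_neg_one hf]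
  · rw [(maninRep_conj hc hφ γ h _ ht).1, hf.2.1]
  · rw [(maninRep_conj hc hφ γ h _ ht).1, maninCocycle_neg hf, hf.2.1]
  · obtain ⟨h1, h2⟩ := maninRep_conj hc hφ γ h _ ht
    rw [h1, hU _ h2]
  · obtain ⟨h1, h2⟩ := maninRep_conj hc hφ γ h _ ht
    rw [h1, maninCocycle_neg hf, hU _ (by rw [← hnegsmul]; exact h2)]
  · obtain ⟨h1, h2⟩ := maninRep_conj hc hφ γ h _ ht
    rw [h1, hU2 _ h2]
  · obtain ⟨h1, h2⟩ := maninRep_conj hc hφ γ h _ ht
    rw [h1, maninCocycle_neg hf, hU2 _ (by rw [← hnegsmul]; exact h2)]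

section Parabolic

variable {Γ : Subgroup SL(2, ℤ)} {A : Type*} [AddCommGroup A]

theorem trace_T_zpow (k : ℤ) : ((T ^ k : SL(2, ℤ)) : Matrix (Fin 2) (Fin 2) ℤ).trace = 2 := by
  rw [coe_T_zpow, Matrix.trace_fin_two_of]
  norm_num

theorem trace_conj_sl' (t x : SL(2, ℤ)) :
    ((t * x * t⁻¹ : SL(2, ℤ)) : Matrix (Fin 2) (Fin 2) ℤ).trace =
      (x : Matrix (Fin 2) (Fin 2) ℤ).trace := by
  rw [mul_assoc, Matrix.SpecialLinearGroup.coe_mul, Matrix.trace_mul_comm,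
    ← Matrix.SpecialLinearGroup.coe_mul, mul_assoc, inv_mul_cancel, mul_one]

/-- If `φ` is parabolic, the cocycle vanishes on `T ^ k` at the fixed points of `T ^ k`. -/
theorem cocycle_T_zpow_fixed {φ : Additive Γ →+ A} {f : SL(2, ℤ) → SL(2, ℤ) ⧸ Γ → A}
    (hf : IsCocycle f)
    (hφ : ∀ γ : Γ, φ (Additive.ofMul γ) = f (γ : SL(2, ℤ)) ((1 : SL(2, ℤ)) : SL(2, ℤ) ⧸ Γ))
    (hpar : IsParabolicHom Γ φ) (k : ℤ) (y : SL(2, ℤ) ⧸ Γ) (hy : T ^ k • y = y) :
    f (T ^ k) y = 0 := by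
  set g : SL(2, ℤ) := Quotient.out y with hg
  have hgy : g • basePt Γ = y := out_smul_basePt Γ y
  have hmem : g⁻¹ * T ^ k * g ∈ Γ := by
    rw [← smul_basePt_eq_iff, mul_smul, mul_smul, hgy, hy, ← hgy, inv_smul_smul]
  have h1 := maninRep_conj hf hφ ⟨g⁻¹ * T ^ k * g, hmem⟩ g (T ^ k) (by
    show g * (g⁻¹ * T ^ k * g) * g⁻¹ = T ^ k
    group)
  rw [hgy] at h1
  rw [← h1.1]
  apply hpar
  show ((g⁻¹ * T ^ k * g : SL(2, ℤ)) : Matrix (Fin 2) (Fin 2) ℤ).trace ^ 2 = 4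
  have h2 := trace_conj_sl' g⁻¹ (T ^ k)
  rw [inv_inv] at h2
  rw [h2, trace_T_zpow]
  norm_num

end Parabolic

/-- (D4) `φ` is parabolic iff `m` admits parabolic data. -/
theorem maninRepParabolic : Spec.ManinRepParabolicStatement.{u} := by
  intro Γ _ hneg A _ φ m hrep
  obtain ⟨f, hf, hφ⟩ := hrep
  have hc : IsCocycle f := hf.1
  have hn := neg_one_smul_quot hneg
  have hfT := maninCocycle_T hf
  constructor
  · -- parabolic ⇒ parabolic data
    intro hpar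
    have hfix := cocycle_T_zpow_fixed hc hφ hpar
    -- orbit representatives
    have hex : ∀ x : SL(2, ℤ) ⧸ Γ, ∃ k : ℤ, T ^ k • Quotient.out (orbMk T x) = x := by
      intro x
      have h1 : orbMk T (Quotient.out (orbMk T x)) = orbMk T x := Quotient.out_eq' _
      obtain ⟨k, hk⟩ := (orbMk_eq_iff T _ _).mp h1
      refine ⟨-k, ?_⟩
      rw [← hk, ← mul_smul, ← zpow_add, neg_add_cancel, zpow_zero, one_smul]
    choose k hk using hex
    refine ⟨fun x => f (T ^ k x) (Quotient.out (orbMk T x)), fun x => ?_⟩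
    show f (T ^ k (T • x)) (Quotient.out (orbMk T (T • x))) -
      f (T ^ k x) (Quotient.out (orbMk T x)) = m ((S * T) • x) - m x
    rw [← hfT x]
    have hr : orbMk T (T • x) = orbMk T x := orbMk_smul T x
    rw [hr]
    set r := Quotient.out (orbMk T x) with hrdef
    have h1 : T ^ k (T • x) • r = T • x := by
      have := hk (T • x)
      rwa [hr] at this
    have h2 : T ^ k x • r = x := hk x
    -- `T ^ (k' - k - 1)` fixes `T • x`
    have e1 : (T * T ^ k x) • r = T • x := by rw [mul_smul, h2]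
    have e2 : T ^ k (T • x) = T ^ (k (T • x) - (k x + 1)) * (T * T ^ k x) := by
      rw [← zpow_one_add, ← zpow_add]
      congr 1
      ring
    have h3 : T ^ (k (T • x) - (k x + 1)) • (T • x) = T • x := by
      have e3 := h1
      rw [e2, mul_smul, e1] at e3
      exact e3
    have h4 := hfix _ _ h3
    have h5 : f (T ^ k (T • x)) r = f (T ^ k x) r + f T x := by
      rw [e2, hc, e1, h4, add_zero, hc, h2]
    rw [h5]
    abel
  · -- parabolic data ⇒ parabolic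
    rintro ⟨e, he⟩
    have hT : ∀ x, f T x = e (T • x) - e x := fun x => by rw [hfT, he]
    have hzpow := hc.zpow_of_cobd T e hT
    intro γ hγ
    have key : ∀ (g : SL(2, ℤ)) (k : ℤ), (g * T ^ k * g⁻¹) • basePt Γ = basePt Γ →
        f (g * T ^ k * g⁻¹) (basePt Γ) = 0 := by
      intro g k hfix
      rw [hc.conj_apply g (T ^ k) hfix, hzpow]
      have h1 : T ^ k • g⁻¹ • basePt Γ = g⁻¹ • basePt Γ := by
        calc T ^ k • g⁻¹ • basePt Γ = g⁻¹ • (g * T ^ k * g⁻¹) • basePt Γ := by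
              simp only [mul_smul, inv_smul_smul]
          _ = g⁻¹ • basePt Γ := by rw [hfix]
      rw [h1, sub_self]
    rw [hφ γ]
    show f (γ : SL(2, ℤ)) (basePt Γ) = 0
    obtain ⟨g, k, h | h⟩ := exists_conj_T_zpow (γ : SL(2, ℤ)) hγ
    · rw [h]
      apply key
      rw [← h]
      exact smul_basePt_of_mem Γ γ.2
    · have h2 : (g * T ^ k * g⁻¹) • basePt Γ = basePt Γ := by
        have h3 : g * T ^ k * g⁻¹ = (-1) * (γ : SL(2, ℤ)) := by
          rw [h]; simp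
        rw [h3, mul_smul, smul_basePt_of_mem Γ γ.2, hn]
      rw [h, maninCocycle_neg hf]
      exact key g k h2

end Fermat.Agent.S41.H581
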