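import Mathlib
import Fermat.Agent.S41.Spec.PD
import Fermat.Agent.S41.H581.PDDictB

/-!
# Row S41, block PD, leaf HEIS-U (helper581)

`cuspSumZero_of : Spec.ManinRepExistsStatement → Spec.CuspSumZeroStatement` — a torsion-trivial
homomorphism `χ : Γ → A` sums to `0` over a `T`-orbit system: with a Manin representative `m`
(leaf D1), `χ (γᵢ) = f (T ^ wᵢ) (hᵢ x₀) = ∑_{j < wᵢ} f T (T ^ j hᵢ x₀)`, and the total is
`∑ₓ f T x = ∑ₓ (m (S T x) - m x) = 0`.
-/

set_option autoImplicit false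

namespace Fermat.Agent.S41.H581

open CongruenceSubgroup Matrix.SpecialLinearGroup ModularCurve.Period ModularGroup
open Fermat.Agent.S41.Spec Fermat.Agent.S21.H585
open scoped MatrixGroups

universe u

section

variable {Γ : Subgroup SL(2, ℤ)} {A : Type*} [AddCommGroup A]

/-- Expansion of a cocycle on a natural power. -/
theorem cocycle_pow_eq_sum {f : SL(2, ℤ) → SL(2, ℤ) ⧸ Γ → A} (hf : IsCocycle f) (g : SL(2, ℤ))
    (n : ℕ) (y : SL(2, ℤ) ⧸ Γ) :
    f (g ^ n) y = ∑ j ∈ Finset.range n, f g (g ^ j • y) := by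
  induction n with
  | zero => simp [hf.map_one]
  | succ n ih =>
    rw [pow_succ', hf, ih, Finset.sum_range_succ]

/-- The value of a represented class on `h⁻¹ T ^ w h`. -/
theorem maninRep_orbit_value {χ : Additive Γ →+ A} {f : SL(2, ℤ) → SL(2, ℤ) ⧸ Γ → A}
    (hf : IsCocycle f)
    (hχ : ∀ γ : Γ, χ (Additive.ofMul γ) = f (γ : SL(2, ℤ)) ((1 : SL(2, ℤ)) : SL(2, ℤ) ⧸ Γ))
    (γ : Γ) (h : SL(2, ℤ)) (w : ℕ) (hγ : (γ : SL(2, ℤ)) = h⁻¹ * T ^ w * h) :
    χ (Additive.ofMul γ) = ∑ j : Fin w, f T (((T ^ (j : ℕ) * h : SL(2, ℤ)) : SL(2, ℤ) ⧸ Γ)) := by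
  have ht : h * (γ : SL(2, ℤ)) * h⁻¹ = T ^ w := by
    rw [hγ]; group
  rw [(maninRep_conj hf hχ γ h (T ^ w) ht).1, cocycle_pow_eq_sum hf, ← Fin.sum_univ_eq_sum_range]
  refine Finset.sum_congr rfl fun j _ => ?_
  rw [← mul_smul, smul_basePt_eq]

end

/-- (HEIS-U) a torsion-trivial homomorphism sums to `0` over a `T`-orbit system (given D1). -/
theorem cuspSumZero_of (d1 : Spec.ManinRepExistsStatement.{u}) :
    Spec.CuspSumZeroStatement.{u} := by
  intro Γ _ hneg A _ χ hχ ι _ γ h w hsys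
  obtain ⟨m, f, hf, hrep⟩ := d1 Γ hneg A χ hχ
  have hc : IsCocycle f := hf.1
  obtain ⟨-, hγ, hbij⟩ := hsys
  letI : Fintype (SL(2, ℤ) ⧸ Γ) := Γ.fintypeQuotientOfFiniteIndex
  -- the parametrisation of `X` by the orbit system
  let pt : (Σ i, Fin (w i)) → SL(2, ℤ) ⧸ Γ :=
    fun p => ((T ^ (p.2 : ℕ) * h p.1 : SL(2, ℤ)) : SL(2, ℤ) ⧸ Γ)
  have hpt : Function.Bijective pt := by
    constructor
    · intro p p' hpp
      obtain ⟨p₀, -, huniq⟩ := hbij (pt p)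
      rw [huniq p rfl, huniq p' hpp]
    · intro x
      obtain ⟨p, hp, -⟩ := hbij x
      exact ⟨p, hp.symm⟩
  calc ∑ i, χ (Additive.ofMul (γ i))
      = ∑ i, ∑ j : Fin (w i), f T (pt ⟨i, j⟩) :=
        Finset.sum_congr rfl fun i _ => maninRep_orbit_value hc hrep (γ i) (h i) (w i) (hγ i)
    _ = ∑ p : (Σ i, Fin (w i)), f T (pt p) := by
        rw [Finset.sum_sigma' Finset.univ (fun i => (Finset.univ : Finset (Fin (w i))))
          (fun i j => f T (pt ⟨i, j⟩))]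
        rfl
    _ = ∑ x : SL(2, ℤ) ⧸ Γ, f T x :=
        Fintype.sum_bijective pt hpt _ _ fun _ => rfl
    _ = ∑ x : SL(2, ℤ) ⧸ Γ, (m ((S * T) • x) - m x) :=
        Finset.sum_congr rfl fun x _ => maninCocycle_T hf x
    _ = 0 := by
        rw [Finset.sum_sub_distrib, sub_eq_zero]
        exact Equiv.sum_comp (MulAction.toPerm (S * T)) m

end Fermat.Agent.S41.H581
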