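import Mathlib
import Fermat.Agent.S41.Spec.PD
import Fermat.Agent.S41.H581.TransferCusp

/-!
# Row S41, block PD, leaves MISC (helper581)

* `pdHeckeOfPD : Spec.PDHeckeOfPDStatement` — `T_l` is self-adjoint for every Poincaré-duality
  family (`B(T_l x, y) = -B(y, t₂ r₁ x) = -B(r₂ y, r₁ x) = B(r₁ x, r₂ y) = B(x, t₁ r₂ y)`);
* `cuspFree : Spec.CuspFreeStatement` — the cuspidal classes with coefficients `ℤ` form a finite
  free `ℤ`-module (`Γ₀(n)` is finitely generated, so `Hom(Γ₀(n), ℤ)` embeds into `ℤ^k`).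
-/

set_option autoImplicit false

namespace Fermat.Agent.S41.H581

open CongruenceSubgroup Matrix.SpecialLinearGroup ModularCurve.Period ModularGroup
open Fermat.Agent.S41.Spec Fermat.Agent.S29.H642
open scoped MatrixGroups

universe u

/-- (PD-HECKE) `T_l` is self-adjoint for a Poincaré-duality family. -/
theorem pdHeckeOfPD : Spec.PDHeckeOfPDStatement.{u} := by
  intro hRC hTRH F _ B hB n l _ hl hn x y hx hy
  obtain ⟨-, -, hskew, -, hadj⟩ := hB
  have hlp : l.Prime := Fact.out
  have hnl : n * l ≠ 0 := Nat.mul_ne_zero hn hlp.ne_zero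
  obtain ⟨-, hTx2⟩ := hTRH n l hl hn F x
  obtain ⟨hTy1, -⟩ := hTRH n l hl hn F y
  obtain ⟨hr1x, -⟩ := hRC n l F x hx
  obtain ⟨-, hr2y⟩ := hRC n l F y hy
  have hTxc : IsCuspidal (heckeTransfer hl x) := by
    rw [← hTx2]
    exact (transferCusp n l F (r₁ n l x) hr1x).2
  have e1 : B n (heckeTransfer hl x) y = - B n y (heckeTransfer hl x) :=
    hskew n hn y (heckeTransfer hl x) hy hTxc
  have e2 : B n y (heckeTransfer hl x) = B (n * l) (r₂ n l y) (r₁ n l x) := by
    rw [← hTx2]
    exact ((hadj n l hn hlp hl y (r₁ n l x) hy hr1x).2).symm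
  have e3 : B (n * l) (r₂ n l y) (r₁ n l x) = - B (n * l) (r₁ n l x) (r₂ n l y) :=
    hskew (n * l) hnl (r₁ n l x) (r₂ n l y) hr1x hr2y
  have e4 : B (n * l) (r₁ n l x) (r₂ n l y) = B n x (heckeTransfer hl y) := by
    rw [← hTy1]
    exact (hadj n l hn hlp hl x (r₂ n l y) hx hr2y).1
  rw [e1, e2, e3, e4, neg_neg]

/-- `SL(2,ℤ)` is finitely generated. -/
theorem groupFG_SL2Z_h581 : Group.FG SL(2, ℤ) :=
  Group.fg_iff.mpr ⟨{S, T}, _root_.SpecialLinearGroup.SL2Z_generators, Set.toFinite _⟩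

/-- For a finitely generated group `H`, `Hom(H, ℤ)` embeds `ℤ`-linearly into a finite power of
`ℤ`. -/
theorem exists_injective_eval (H : Type*) [Group H] [Group.FG H] :
    ∃ (s : Finset H) (L : (Additive H →+ ℤ) →ₗ[ℤ] (s → ℤ)), Function.Injective L := by
  obtain ⟨s, hs⟩ := Group.fg_def.mp (inferInstance : Group.FG H)
  let L : (Additive H →+ ℤ) →ₗ[ℤ] (s → ℤ) :=
    { toFun := fun φ x => φ (Additive.ofMul (x : H))
      map_add' := fun _ _ => rfl
      map_smul' := fun _ _ => rfl }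
  refine ⟨s, L, ?_⟩
  rw [← LinearMap.ker_eq_bot, LinearMap.ker_eq_bot']
  intro φ hφ
  have h0 : ∀ x ∈ s, φ (Additive.ofMul x) = 0 := fun x hx => congrFun hφ ⟨x, hx⟩
  have key : ∀ h : H, φ (Additive.ofMul h) = 0 := by
    intro h
    have hg : h ∈ Subgroup.closure (s : Set H) := by rw [hs]; trivial
    induction hg using Subgroup.closure_induction with
    | mem x hx => exact h0 x hx
    | one => exact map_zero φ
    | mul x y _ _ hx hy =>
      rw [ofMul_mul, map_add, hx, hy, add_zero]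
    | inv x _ hx =>
      rw [ofMul_inv, map_neg, hx, neg_zero]
  exact AddMonoidHom.ext fun g => key (Additive.toMul g)

/-- Every submodule of `Hom(H, ℤ)`, `H` finitely generated, is finite and free over `ℤ`. -/
theorem finite_free_submodule_hom_int (H : Type*) [Group H] [Group.FG H]
    (N : Submodule ℤ (Additive H →+ ℤ)) : Module.Finite ℤ N ∧ Module.Free ℤ N := by
  obtain ⟨s, L, hL⟩ := exists_injective_eval H
  have hinj : Function.Injective (L.comp N.subtype) := hL.comp N.injective_subtype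
  let e := LinearEquiv.ofInjective (L.comp N.subtype) hinj
  exact ⟨Module.Finite.equiv e.symm, Module.Free.of_equiv e.symm⟩

/-- (LIFT b) `C_n(ℤ)` is a finite free `ℤ`-module. -/
theorem cuspFree : Spec.CuspFreeStatement := by
  intro n hn
  haveI : NeZero n := ⟨hn⟩
  haveI : Group.FG SL(2, ℤ) := groupFG_SL2Z_h581
  haveI : Group.FG (Gamma0 n) := Subgroup.fg_of_index_ne_zero (Gamma0 n)
  exact finite_free_submodule_hom_int (Gamma0 n) (cuspidalSubmodule ℤ n ℤ)

end Fermat.Agent.S41.H581
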